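import Fermat.Agent.S17.H710.Wall.Defs
import Fermat.Agent.Lib.RR.Duality

/-!
# S17 / tower H, WALL leaf G-RANK (helper328)

`rank : Wall.RankStatement E` (exact statement of `S17/H710/Wall/Defs.lean`), for every embedding
datum `E`: the rows `β_s`, `w_ρ X^α` of the evaluation matrix at points of the cone are the
values of elements of `L(k m ∞ - Σ Aᵢ)`, a space of dimension `κ_k = k m - k + 1 - g`.

Proof.  Every row is `ev G` for a form `G` of degree `k` in the span `U` of the generators
`secProd (pt ∘ A) s`, `linForm (W ρ) * monoOrd α`; `aeval E.x` maps `U` into `L(k m ∞ - Σ Aᵢ)`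
(zero divisors of products add up, `pt_spec`); evaluation at points of the cone kills the kernel
of `aeval E.x` on forms (`OnCone`); Riemann–Roch.
-/

set_option autoImplicit false

noncomputable section

namespace Fermat.Agent.S17.H328

open AlgebraicCurve MvPolynomial
open Fermat.Agent.Lib.RR Fermat.Agent.S17.HWall Fermat.Agent.S17.H710 Fermat.Agent.S17.Wall

section LinearAlgebra

variable {K : Type*} [Field K]

/-- If `g` factors through `f` on `U` and `f` maps `U` into a finite-dimensional `L`, then any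
family of values of `g` on `U` spans a space of dimension `≤ dim L`. -/
theorem finrank_span_le_of_factor
    {V M N : Type*} [AddCommGroup V] [Module K V] [AddCommGroup M] [Module K M]
    [AddCommGroup N] [Module K N]
    (f : V →ₗ[K] M) (g : V →ₗ[K] N) (U : Submodule K V) (L : Submodule K M)
    [FiniteDimensional K L]
    (hUL : ∀ v ∈ U, f v ∈ L) (hker : ∀ v ∈ U, f v = 0 → g v = 0)
    {ι : Type*} (row : ι → N) (hrow : ∀ i, ∃ v ∈ U, g v = row i) :
    Module.finrank K (Submodule.span K (Set.range row)) ≤ Module.finrank K L := by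
  let f' : U →ₗ[K] L := (f.domRestrict U).codRestrict L (fun v => hUL v v.2)
  let g' : U →ₗ[K] N := g.domRestrict U
  have hk : LinearMap.ker f' ≤ LinearMap.ker g' := by
    intro v hv
    rw [LinearMap.mem_ker] at hv ⊢
    have h0 : f v = 0 := congrArg Subtype.val hv
    exact hker v v.2 h0
  let h : (U ⧸ LinearMap.ker f') →ₗ[K] N := (LinearMap.ker f').liftQ g' hk
  have hfin : FiniteDimensional K (U ⧸ LinearMap.ker f') :=
    LinearEquiv.finiteDimensional f'.quotKerEquivRange.symm
  have h1 : Submodule.span K (Set.range row) ≤ LinearMap.range h := by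
    rw [Submodule.span_le]
    rintro _ ⟨i, rfl⟩
    obtain ⟨v, hv, hgv⟩ := hrow i
    exact ⟨Submodule.Quotient.mk ⟨v, hv⟩, hgv⟩
  calc Module.finrank K (Submodule.span K (Set.range row))
      ≤ Module.finrank K (LinearMap.range h) := Submodule.finrank_mono h1
    _ ≤ Module.finrank K (U ⧸ LinearMap.ker f') := LinearMap.finrank_range_le h
    _ = Module.finrank K (LinearMap.range f') := LinearEquiv.finrank_eq f'.quotKerEquivRange
    _ ≤ Module.finrank K L := Submodule.finrank_le _

end LinearAlgebra

section RRSpace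

variable {K F : Type*} [Field K] [Field F] [Algebra K F]

/-- `L(D) · L(D') ⊆ L(D + D')`. -/
theorem mul_mem_rrSpace {D D' : Divisor K F} {f g : F}
    (hf : f ∈ riemannRochSpace D) (hg : g ∈ riemannRochSpace D') :
    f * g ∈ riemannRochSpace (D + D') := by
  rw [mem_L_iff] at hf hg ⊢
  intro v
  by_cases hf0 : f = 0
  · left; rw [hf0, zero_mul]
  by_cases hg0 : g = 0
  · left; rw [hg0, mul_zero]
  right
  have h1 := (hf v).resolve_left hf0
  have h2 := (hg v).resolve_left hg0
  rw [v.ord_mul hf0 hg0, Finsupp.add_apply]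
  omega

theorem one_mem_rrSpace_zero : (1 : F) ∈ riemannRochSpace (0 : Divisor K F) := by
  rw [mem_L_iff]
  intro v
  right
  rw [v.ord_one]
  simp

/-- `∏ L(Dᵢ) ⊆ L(Σ Dᵢ)`. -/
theorem prod_mem_rrSpace {ι : Type*} (s : Finset ι) (D : ι → Divisor K F) (f : ι → F)
    (h : ∀ i ∈ s, f i ∈ riemannRochSpace (D i)) :
    ∏ i ∈ s, f i ∈ riemannRochSpace (∑ i ∈ s, D i) := by
  classical
  induction s using Finset.induction_on with
  | empty => simpa using one_mem_rrSpace_zero (K := K) (F := F)
  | insert a s ha ih =>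
    rw [Finset.prod_insert ha, Finset.sum_insert ha]
    exact mul_mem_rrSpace (h a (Finset.mem_insert_self a s))
      (ih fun i hi => h i (Finset.mem_insert_of_mem hi))

end RRSpace

section Emb

variable {K F : Type*} [Field K] [Field F] [Algebra K F]

/-- the coefficient vector of the secant form `secForm u p` -/
def secVec {n : ℕ} (u : Fin n → K) (p : Fin n × Fin n) : Fin n → K :=
  fun i => (if i = p.2 then u p.1 else 0) - (if i = p.1 then u p.2 else 0)

theorem dot_secVec {n : ℕ} (u z : Fin n → K) (p : Fin n × Fin n) :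
    dot (secVec u p) z = wedge u z p := by
  simp [dot, dotProduct, secVec, wedge, sub_mul, Finset.sum_sub_distrib, ite_mul]

theorem aeval_linForm_eq_lin {n : ℕ} (x : Fin n → F) (a : Fin n → K) :
    aeval x (linForm a) = lin x a := by
  simp [linForm, lin, Algebra.smul_def]

theorem aeval_secForm_eq_lin {n : ℕ} (x : Fin n → F) (u : Fin n → K) (p : Fin n × Fin n) :
    aeval x (secForm u p) = lin x (secVec u p) := by
  simp [secForm, lin, secVec, Algebra.smul_def, sub_mul, Finset.sum_sub_distrib, ite_mul,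
    apply_ite (algebraMap K F)]

theorem aeval_monoOrd_eq {n e : ℕ} (x : Fin n → F) (α : Fin e → Fin n) :
    aeval x (monoOrd (K := K) α) = ∏ j, x (α j) := by
  simp [monoOrd]

variable [FF1 K F]

/-- `Σ aᵢ xᵢ ∈ L(m∞ - D)` for every `D ≤ Z_a`. -/
theorem lin_mem_sub (E : EmbData K F) {a : Fin (E.r + 1) → K} {D : Divisor K F}
    (h : a ≠ 0 → D ≤ E.Z a) : lin E.x a ∈ riemannRochSpace (E.m • prim E.vinf - D) := by
  by_cases ha : a = 0
  · subst ha
    have h0 : lin E.x (0 : Fin (E.r + 1) → K) = 0 := by simp [lin]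
    rw [h0]
    exact Submodule.zero_mem _
  · rw [mem_L_iff]
    intro v
    right
    have h1 := Finsupp.le_def.mp (h ha) v
    rw [E.Z_apply ha v] at h1
    rw [Finsupp.sub_apply]
    omega

theorem x_mem (E : EmbData K F) (i : Fin (E.r + 1)) :
    E.x i ∈ riemannRochSpace (E.m • prim E.vinf) := by
  rw [← E.x_span]
  exact Submodule.subset_span ⟨i, rfl⟩

/-- the secant forms through `A i` vanish at `A i` -/
theorem prim_le_Z_secVec (E : EmbData K F) (P : Place K F) (p : Fin (E.r + 1) × Fin (E.r + 1))
    (ha : secVec (E.pt P) p ≠ 0) : prim P ≤ E.Z (secVec (E.pt P) p) := by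
  have hd : dot (secVec (E.pt P) p) (E.pt P) = 0 := by
    rw [dot_secVec]
    simp only [wedge]
    ring
  have h1 : 0 < E.Z (secVec (E.pt P) p) P := (E.pt_spec P _ ha).mp hd
  rw [Finsupp.le_def]
  intro v
  by_cases hv : v = P
  · subst hv
    rw [prim_apply_self]
    omega
  · rw [prim_apply_of_ne hv]
    exact Finsupp.le_def.mp (E.Z_nonneg _) v

/-- the rows `β_s` are sections of `L(k m ∞ - Σ Aᵢ)` -/
theorem aeval_secProd_mem (E : EmbData K F) {k : ℕ} (A : Fin k → Place K F)
    (s : Fin k → Fin (E.r + 1) × Fin (E.r + 1)) :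
    aeval E.x (secProd (fun i => E.pt (A i)) s) ∈
      riemannRochSpace ((k * E.m) • prim E.vinf - ∑ l, prim (A l)) := by
  have h := prod_mem_rrSpace Finset.univ (fun i => E.m • prim E.vinf - prim (A i))
    (fun i => lin E.x (secVec (E.pt (A i)) (s i)))
    (fun i _ => lin_mem_sub E (fun ha => prim_le_Z_secVec E (A i) (s i) ha))
  have e1 : aeval E.x (secProd (fun i => E.pt (A i)) s)
      = ∏ i, lin E.x (secVec (E.pt (A i)) (s i)) := by
    simp [secProd, map_prod, aeval_secForm_eq_lin]
  have e2 : ∑ i : Fin k, (E.m • prim E.vinf - prim (A i))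
      = (k * E.m) • prim E.vinf - ∑ l, prim (A l) := by
    rw [Finset.sum_sub_distrib, Finset.sum_const, Finset.card_univ, Fintype.card_fin, mul_smul]
  rw [e1, ← e2]
  exact h

/-- the rows `w X^α` are sections of `L(k m ∞ - Σ Aᵢ)` -/
theorem aeval_wRow_mem (E : EmbData K F) {k : ℕ} (hk : 1 ≤ k) (A : Fin k → Place K F)
    (w : Fin (E.r + 1) → K) (hw : w ≠ 0 → ∑ l, prim (A l) ≤ E.Z w)
    (α : Fin (k - 1) → Fin (E.r + 1)) :
    aeval E.x (linForm w * monoOrd α) ∈
      riemannRochSpace ((k * E.m) • prim E.vinf - ∑ l, prim (A l)) := by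
  have h1 : lin E.x w ∈ riemannRochSpace (E.m • prim E.vinf - ∑ l, prim (A l)) :=
    lin_mem_sub E hw
  have h2 := prod_mem_rrSpace Finset.univ (fun _ : Fin (k - 1) => E.m • prim E.vinf)
    (fun j => E.x (α j)) (fun j _ => x_mem E (α j))
  have h3 := mul_mem_rrSpace h1 h2
  have e1 : aeval E.x (linForm w * monoOrd α) = lin E.x w * ∏ j, E.x (α j) := by
    rw [map_mul, aeval_linForm_eq_lin, aeval_monoOrd_eq]
  have hkm : k * E.m = E.m + (k - 1) * E.m := by
    have hk' : k = (k - 1) + 1 := by omega
    conv_lhs => rw [hk']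
    ring
  have e2 : (E.m • prim E.vinf - ∑ l, prim (A l)) + ∑ _j : Fin (k - 1), E.m • prim E.vinf
      = (k * E.m) • prim E.vinf - ∑ l, prim (A l) := by
    rw [Finset.sum_const, Finset.card_univ, Fintype.card_fin, hkm, add_smul, mul_smul]
    abel
  rw [e1, ← e2]
  exact h3

/-- `ℓ(k m ∞ - Σ Aᵢ) = κ_k`. -/
theorem finrank_rrSpace_eq_kapN (E : EmbData K F) {k : ℕ} (hk : 1 ≤ k) (A : Fin k → Place K F) :
    Module.finrank K (riemannRochSpace ((k * E.m) • prim E.vinf - ∑ l, prim (A l)))
      = kapN E k := by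
  have hdeg : Divisor.degree ((k * E.m) • prim E.vinf - ∑ l, prim (A l))
      = (k * E.m : ℕ) - (k : ℤ) := by
    rw [map_sub, map_nsmul, map_sum]
    simp
  have hm := E.hm
  have h1 : k * (2 * genusR K F + 1) ≤ k * E.m := Nat.mul_le_mul_left k hm
  have h2 : 1 * (2 * genusR K F) ≤ k * (2 * genusR K F) := Nat.mul_le_mul_right _ hk
  have h3 : k * (2 * genusR K F + 1) = k * (2 * genusR K F) + k := by ring
  have hgt : 2 * (genusFF K F : ℤ) - 2
      < Divisor.degree ((k * E.m) • prim E.vinf - ∑ l, prim (A l)) := by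
    rw [hdeg, genusFF_eq_genusR]
    omega
  have h4 := ell_eq_of_degree_gt hgt
  rw [hdeg, genusFF_eq_genusR] at h4
  unfold ell at h4
  unfold kapN
  omega

end Emb

section Main

variable {K F : Type*} [Field K] [Field F] [Algebra K F] [FF1 K F]

/-- evaluation of a polynomial at the points `y j` and at `z` -/
def evRow {n : ℕ} {c : Type*} (y : c → Fin n → K) (z : Fin n → K) :
    MvPolynomial (Fin n) K →ₗ[K] (c ⊕ Unit → K) where
  toFun G := Sum.elim (fun j => eval (y j) G) (fun _ => eval z G)
  map_add' G H := by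
    funext q
    cases q <;> simp
  map_smul' a G := by
    funext q
    cases q <;> simp [smul_eval]

/-- **G-RANK** (leaf of the wall of tower H, row S17). -/
theorem rank (E : EmbData K F) : RankStatement E := by
  intro k A ρ _ W hk hW c _ y z hy hz
  rw [← finrank_rrSpace_eq_kapN E hk A]
  refine finrank_span_le_of_factor (aeval E.x).toLinearMap (evRow y z)
    (homogeneousSubmodule (Fin (E.r + 1)) K k ⊓
      (riemannRochSpace ((k * E.m) • prim E.vinf - ∑ l, prim (A l))).comap
        (aeval E.x).toLinearMap)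
    (riemannRochSpace ((k * E.m) • prim E.vinf - ∑ l, prim (A l))) ?_ ?_ _ ?_
  · intro v hv
    exact hv.2
  · intro v hv h0
    have hhom : v.IsHomogeneous k := hv.1
    funext q
    cases q with
    | inl j => exact hy j k v hhom h0
    | inr u => exact hz k v hhom h0
  · rintro (s | t)
    · refine ⟨secProd (fun i => E.pt (A i)) s,
        ⟨secProd_isHomogeneous _ _, aeval_secProd_mem E A s⟩, ?_⟩
      funext q
      cases q with
      | inl j => simp [evRow, stack, betaMat_eq_eval]
      | inr u => simp [evRow, stack, betaCol, eval_secProd]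
    · refine ⟨linForm (W t.1) * monoOrd t.2,
        ⟨?_, aeval_wRow_mem E hk A (W t.1) (hW t.1) t.2⟩, ?_⟩
      · have h := (linForm_isHomogeneous (W t.1)).mul (monoOrd_isHomogeneous (K := K) t.2)
        have hk' : 1 + (k - 1) = k := by omega
        rw [hk'] at h
        exact h
      · funext q
        cases q with
        | inl j => simp [evRow, stack, wMat_eq_eval]
        | inr u => simp [evRow, stack, wCol, eval_linForm, eval_monoOrd]

end Main

end Fermat.Agent.S17.H328
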