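import Fermat.Agent.S17.H328.Rank
import Fermat.Agent.S17.H230.EmbCons

/-!
# S17 / tower H, WALL leaf G-RANK-JET (helper328)

`rankJet : Wall.RankJetStatement E` (exact statement of `S17/H710/Wall/Defs.lean`), for every
embedding datum `E`.

* `jetEv z z' G = Σ z'ᵢ (∂G/∂Xᵢ)(z)` : the first order jet; Leibniz rules, `jetEv_secProd`,
  `jetEv_wRow` identify the columns `betaJet`, `wJet`.
* `taylor_regAt`, `jet_vanish` : if `fᵢ = cᵢ + π qᵢ` (`qᵢ` regular at `v`) and `G(f) = 0` then
  `G(c) = 0` and the jet of `G` at `c` in the direction `q(v)` vanishes.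
* `jetKill` : **jets kill the homogeneous relations of `E.x`**:
  `G` homogeneous, `G(E.x) = 0` implies `jetEv (E.pt P) (E.tn P) G = 0`
  (`span (pt, tn) = span (ptD, tnD)` by `pt_spec`, `tn_spec`; Euler's identity).
-/

set_option autoImplicit false

noncomputable section

namespace Fermat.Agent.S17.H328

open AlgebraicCurve MvPolynomial
open Fermat.Agent.Lib.RR Fermat.Agent.S17.HWall Fermat.Agent.S17.H710 Fermat.Agent.S17.Wall
open Fermat.Agent.S17.H230

section Jet

variable {K : Type*} [Field K] {n : ℕ}

/-- the first order jet `G ↦ Σ z'ᵢ (∂G/∂Xᵢ)(z)` at `z` in the direction `z'` -/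
def jetEv (z z' : Fin n → K) : MvPolynomial (Fin n) K →ₗ[K] K where
  toFun G := ∑ i, z' i * eval z (pderiv i G)
  map_add' G H := by simp [mul_add, Finset.sum_add_distrib]
  map_smul' a G := by simp [Finset.mul_sum, smul_eval, mul_left_comm]

theorem jetEv_apply (z z' : Fin n → K) (G : MvPolynomial (Fin n) K) :
    jetEv z z' G = ∑ i, z' i * eval z (pderiv i G) := rfl

theorem jetEv_mul (z z' : Fin n → K) (G H : MvPolynomial (Fin n) K) :
    jetEv z z' (G * H) = jetEv z z' G * eval z H + eval z G * jetEv z z' H := by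
  simp only [jetEv_apply, pderiv_mul, map_add, map_mul, Finset.sum_mul, Finset.mul_sum,
    ← Finset.sum_add_distrib]
  refine Finset.sum_congr rfl fun i _ => by ring

theorem jetEv_C (z z' : Fin n → K) (a : K) : jetEv z z' (C a) = 0 := by
  simp [jetEv_apply]

theorem jetEv_one (z z' : Fin n → K) : jetEv z z' (1 : MvPolynomial (Fin n) K) = 0 := by
  simp [jetEv_apply]

theorem jetEv_X (z z' : Fin n → K) (i : Fin n) : jetEv z z' (X i) = z' i := by
  simp [jetEv_apply, pderiv_X, Pi.single_apply, apply_ite (eval z)]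

theorem jetEv_linForm (z z' a : Fin n → K) : jetEv z z' (linForm a) = dot a z' := by
  simp [linForm, jetEv_mul, jetEv_C, jetEv_X, dot, dotProduct, map_sum]

theorem jetEv_secForm (z z' u : Fin n → K) (p : Fin n × Fin n) :
    jetEv z z' (secForm u p) = wedge u z' p := by
  simp [secForm, wedge, jetEv_mul, jetEv_C, jetEv_X, map_sub]

theorem jetEv_prod {ι : Type*} [DecidableEq ι] (z z' : Fin n → K) (s : Finset ι)
    (G : ι → MvPolynomial (Fin n) K) :
    jetEv z z' (∏ i ∈ s, G i) = ∑ l ∈ s, jetEv z z' (G l) * ∏ i ∈ s.erase l, eval z (G i) := by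
  induction s using Finset.induction_on with
  | empty => simp [jetEv_one]
  | insert a s ha ih =>
    rw [Finset.prod_insert ha, jetEv_mul, ih, Finset.sum_insert ha, Finset.erase_insert ha,
      map_prod, Finset.mul_sum]
    congr 1
    refine Finset.sum_congr rfl fun l hl => ?_
    have hla : a ≠ l := fun h => ha (h ▸ hl)
    have ha' : a ∉ s.erase l := fun h => ha (Finset.mem_of_mem_erase h)
    rw [Finset.erase_insert_of_ne hla, Finset.prod_insert ha']
    ring

theorem jetEv_secProd {d : ℕ} (z z' : Fin n → K) (u : Fin d → Fin n → K)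
    (s : Fin d → Fin n × Fin n) : jetEv z z' (secProd u s) = betaJet u z z' s := by
  unfold secProd betaJet
  rw [jetEv_prod]
  refine Finset.sum_congr rfl fun l _ => ?_
  rw [jetEv_secForm]
  congr 1
  exact Finset.prod_congr rfl fun i _ => eval_secForm _ _ _

theorem jetEv_monoOrd {e : ℕ} (z z' : Fin n → K) (α : Fin e → Fin n) :
    jetEv z z' (monoOrd α) = ∑ l, z' (α l) * ∏ k ∈ Finset.univ.erase l, z (α k) := by
  unfold monoOrd
  rw [jetEv_prod]
  refine Finset.sum_congr rfl fun l _ => ?_
  rw [jetEv_X]
  congr 1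
  exact Finset.prod_congr rfl fun i _ => eval_X _

theorem jetEv_wRow {e : ℕ} {ρ : Type*} (z z' : Fin n → K) (W : ρ → Fin n → K)
    (t : ρ × (Fin e → Fin n)) :
    jetEv z z' (linForm (W t.1) * monoOrd t.2) = wJet W z z' t := by
  unfold wJet
  rw [jetEv_mul, jetEv_linForm, jetEv_monoOrd, eval_linForm, eval_monoOrd]

/-- linearity in the direction -/
theorem jetEv_dir_add_smul (z u w : Fin n → K) (a b : K) (G : MvPolynomial (Fin n) K) :
    jetEv z (a • u + b • w) G = a * jetEv z u G + b * jetEv z w G := by
  simp only [jetEv_apply, Pi.add_apply, Pi.smul_apply, smul_eq_mul, add_mul, Finset.mul_sum,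
    Finset.sum_add_distrib, mul_assoc]

/-- Euler's identity -/
theorem jetEv_self {d : ℕ} (z : Fin n → K) {G : MvPolynomial (Fin n) K} (hG : G.IsHomogeneous d) :
    jetEv z z G = d * eval z G := by
  have h := congrArg (eval z) hG.sum_X_mul_pderiv
  simp only [map_sum, map_mul, eval_X, nsmul_eq_mul, map_natCast] at h
  rw [jetEv_apply]
  exact h

/-- scaling of the base point -/
theorem jetEv_smul_base {d : ℕ} (z z' : Fin n → K) (c : K) {G : MvPolynomial (Fin n) K}
    (hG : G.IsHomogeneous d) : jetEv (c • z) z' G = c ^ (d - 1) * jetEv z z' G := by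
  simp only [jetEv_apply, Finset.mul_sum]
  refine Finset.sum_congr rfl fun i _ => ?_
  have h := aeval_mul_of_isHomogeneous (S := K) (hG.pderiv (i := i)) c z
  have e1 : eval (c • z) (pderiv i G) = c ^ (d - 1) * eval z (pderiv i G) := by
    rw [← aeval_eq_eval, ← aeval_eq_eval]
    exact h
  rw [e1]
  ring

end Jet

section Taylor

variable {K F : Type*} [Field K] [Field F] [Algebra K F] [FF1 K F] {n : ℕ}

theorem regAt_unif (v : Place K F) : RegAt v (unif v) := by
  rw [regAt_iff, ord_unif]
  exact zero_le_one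

theorem valAt_unif (v : Place K F) : valAt v (unif v) = 0 := by
  rw [valAt_eq_zero_iff (regAt_unif v)]
  right
  rw [ord_unif]
  exact zero_lt_one

theorem valAt_unif_mul (v : Place K F) {g : F} (hg : RegAt v g) : valAt v (unif v * g) = 0 := by
  rw [valAt_mul (regAt_unif v) hg, valAt_unif, zero_mul]

/-- first order Taylor expansion with regular remainder -/
theorem taylor_regAt (v : Place K F) (t : F) (ht : RegAt v t) (c : Fin n → K) (h : Fin n → F)
    (hh : ∀ i, RegAt v (h i)) (G : MvPolynomial (Fin n) K) :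
    ∃ R : F, RegAt v R ∧ aeval (fun i => algebraMap K F (c i) + t * h i) G
      = algebraMap K F (eval c G)
        + t * (∑ i, h i * algebraMap K F (eval c (pderiv i G))) + t ^ 2 * R := by
  induction G using MvPolynomial.induction_on with
  | C a => exact ⟨0, regAt_zero v, by simp⟩
  | add p q hp hq =>
    obtain ⟨R1, hR1, e1⟩ := hp
    obtain ⟨R2, hR2, e2⟩ := hq
    refine ⟨R1 + R2, hR1.add hR2, ?_⟩
    simp only [map_add, e1, e2, mul_add, Finset.sum_add_distrib]
    ring
  | mul_X p j hp =>
    obtain ⟨R, hR, e⟩ := hp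
    have hS : RegAt v (∑ i, h i * algebraMap K F (eval c (pderiv i p))) :=
      RegAt.sum _ fun i _ => (hh i).mul (regAt_algebraMap v _)
    have key : ∑ i, h i * algebraMap K F (eval c (pderiv i (p * X j)))
        = (∑ i, h i * algebraMap K F (eval c (pderiv i p))) * algebraMap K F (c j)
          + h j * algebraMap K F (eval c p) := by
      have e1 : ∀ i, h i * algebraMap K F (eval c (pderiv i (p * X j)))
          = h i * algebraMap K F (eval c (pderiv i p)) * algebraMap K F (c j)
            + (if i = j then h i * algebraMap K F (eval c p) else 0) := by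
        intro i
        by_cases hij : i = j
        · subst hij
          simp only [pderiv_mul, pderiv_X_self, map_add, map_mul, eval_X, mul_one, if_true]
          ring
        · rw [if_neg hij, pderiv_mul, pderiv_X_of_ne (Ne.symm hij)]
          simp only [mul_zero, add_zero, map_mul, eval_X]
          ring
      simp only [e1, Finset.sum_add_distrib, Finset.sum_mul, Finset.sum_ite_eq', Finset.mem_univ,
        if_true]
    refine ⟨R * algebraMap K F (c j) + (∑ i, h i * algebraMap K F (eval c (pderiv i p))) * h j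
      + t * R * h j, ?_, ?_⟩
    · exact ((hR.mul (regAt_algebraMap v _)).add (hS.mul (hh j))).add ((ht.mul hR).mul (hh j))
    · rw [key, map_mul, aeval_X, e, map_mul, eval_X, map_mul]
      ring

/-- If `fᵢ = cᵢ + π qᵢ` with `qᵢ` regular at `v` and `G(f) = 0` then `G(c) = 0` and the jet of
`G` at `c` in the direction `q(v)` vanishes. -/
theorem jet_vanish (v : Place K F) (c : Fin n → K) (q : Fin n → F) (hq : ∀ i, RegAt v (q i))
    (G : MvPolynomial (Fin n) K)
    (hG : aeval (fun i => algebraMap K F (c i) + unif v * q i) G = 0) :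
    eval c G = 0 ∧ jetEv c (fun i => valAt v (q i)) G = 0 := by
  obtain ⟨R, hR, e⟩ := taylor_regAt v (unif v) (regAt_unif v) c q hq G
  rw [hG] at e
  have hS : RegAt v (∑ i, q i * algebraMap K F (eval c (pderiv i G))) :=
    RegAt.sum _ fun i _ => (hq i).mul (regAt_algebraMap v _)
  set S := ∑ i, q i * algebraMap K F (eval c (pderiv i G)) with hSdef
  have hSR : RegAt v (S + unif v * R) := hS.add ((regAt_unif v).mul hR)
  have e' : (0 : F) = algebraMap K F (eval c G) + unif v * (S + unif v * R) := by
    rw [e]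
    ring
  have h1 : eval c G = 0 := by
    have h := congrArg (valAt v) e'
    rw [valAt_zero, valAt_add (regAt_algebraMap v _) ((regAt_unif v).mul hSR), valAt_algebraMap,
      valAt_unif_mul v hSR, add_zero] at h
    exact h.symm
  refine ⟨h1, ?_⟩
  rw [h1, map_zero, zero_add] at e'
  have h2 : S + unif v * R = 0 := by
    rcases mul_eq_zero.mp e'.symm with h | h
    · exact absurd h (unif_ne_zero v)
    · exact h
  have h3 := congrArg (valAt v) h2
  rw [valAt_add hS ((regAt_unif v).mul hR), valAt_unif_mul v hR, add_zero, valAt_zero, hSdef,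
    valAt_sum _ (fun i _ => (hq i).mul (regAt_algebraMap v _))] at h3
  rw [jetEv_apply, ← h3]
  refine Finset.sum_congr rfl fun i _ => ?_
  rw [valAt_mul (hq i) (regAt_algebraMap v _), valAt_algebraMap]

end Taylor

section Kill

variable {K F : Type*} [Field K] [Field F] [Algebra K F] [FF1 K F]

/-- the jets at `(ptD, tnD)` kill the homogeneous relations -/
theorem jet_ptD_tnD {n : ℕ} (D : Divisor K F) (x : Fin n → F)
    (hx : ∀ i, x i ∈ riemannRochSpace D) (P : Place K F) {d : ℕ}
    {G : MvPolynomial (Fin n) K} (hG : G.IsHomogeneous d) (h0 : aeval x G = 0) :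
    eval (ptD D x P) G = 0 ∧ jetEv (ptD D x P) (tnD D x P) G = 0 := by
  have hreg : ∀ i, RegAt P (x i * unif P ^ (D P)) := regAt_normD hx P
  have hq : ∀ i, RegAt P (quot1 P (x i * unif P ^ (D P))) := fun i => regAt_quot1 (hreg i)
  have hf : (fun i => algebraMap K F (ptD D x P i) + unif P * quot1 P (x i * unif P ^ (D P)))
      = fun i => unif P ^ (D P) * x i := by
    funext i
    rw [ptD_apply]
    unfold quot1
    have ht := unif_ne_zero P
    field_simp
    ring
  have hzero : aeval (fun i => algebraMap K F (ptD D x P i)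
      + unif P * quot1 P (x i * unif P ^ (D P))) G = 0 := by
    rw [hf, aeval_mul_of_isHomogeneous hG, h0, mul_zero]
  exact jet_vanish P (ptD D x P) (fun i => quot1 P (x i * unif P ^ (D P))) hq G hzero

/-- a vector annihilated by the common annihilator of finitely many vectors is a linear
combination of them -/
theorem exists_coeffs_of_annihilator {n : ℕ} {ι : Type*} [Fintype ι] (c : ι → Fin n → K)
    (w : Fin n → K) (h : ∀ a : Fin n → K, (∀ i, dot a (c i) = 0) → dot a w = 0) :
    ∃ μ : ι → K, w = ∑ i, μ i • c i := by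
  let L : (Fin n → K) → ((Fin n → K) →ₗ[K] K) := fun u =>
    { toFun := fun a => dot a u
      map_add' := fun a b => add_dotProduct a b u
      map_smul' := fun r a => smul_dotProduct r a u }
  have hker : ⨅ i, LinearMap.ker (L (c i)) ≤ LinearMap.ker (L w) := by
    intro a ha
    rw [Submodule.mem_iInf] at ha
    exact h a fun i => ha i
  obtain ⟨μ, hμ⟩ := (Submodule.mem_span_range_iff_exists_fun K).1
    (mem_span_of_iInf_ker_le_ker hker)
  refine ⟨μ, ?_⟩
  funext j
  have h1 := LinearMap.congr_fun hμ (Pi.single j 1)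
  simp only [LinearMap.coe_sum, Finset.sum_apply, LinearMap.smul_apply, smul_eq_mul, L,
    LinearMap.coe_mk, AddHom.coe_mk, dot, single_dotProduct, one_mul] at h1
  rw [← h1]
  simp [Finset.sum_apply]

/-- **Jets kill the homogeneous relations of `E.x`.** -/
theorem jetKill (E : EmbData K F) (P : Place K F) {d : ℕ}
    {G : MvPolynomial (Fin (E.r + 1)) K} (hG : G.IsHomogeneous d) (h0 : aeval E.x G = 0) :
    jetEv (E.pt P) (E.tn P) G = 0 := by
  have hx : ∀ i, E.x i ∈ riemannRochSpace (E.m • prim E.vinf) := x_mem E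
  set c := ptD (E.m • prim E.vinf) E.x P with hc
  set c' := tnD (E.m • prim E.vinf) E.x P with hc'
  -- comparison of the annihilators
  have hZ : ∀ a : Fin (E.r + 1) → K, a ≠ 0 →
      hypDiv E.vinf E.m E.x a P
        = P.ord (∑ i, a i • E.x i) + (E.m • prim E.vinf : Divisor K F) P := fun a ha =>
    hypDiv_apply_of_ne E.vinf E.m (E.lin_ne_zero ha) P
  have hcmp1 : ∀ a : Fin (E.r + 1) → K, dot a c = 0 → dot a (E.pt P) = 0 := by
    intro a hac
    by_cases ha : a = 0
    · subst ha
      simp [dot]
    · rw [E.pt_spec P a ha, hZ a ha]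
      exact (pt_spec_ptD hx P a (E.lin_ne_zero ha)).mp hac
  have hcmp2 : ∀ a : Fin (E.r + 1) → K, dot a c = 0 → dot a c' = 0 → dot a (E.tn P) = 0 := by
    intro a hac hac'
    by_cases ha : a = 0
    · subst ha
      simp [dot]
    · have h2 : 2 ≤ hypDiv E.vinf E.m E.x a P := by
        rw [hZ a ha]
        exact (tn_spec_ptD hx P a (E.lin_ne_zero ha)).mp ⟨hac, hac'⟩
      exact ((E.tn_spec P a ha).mpr h2).2
  obtain ⟨μ, hμ⟩ := exists_coeffs_of_annihilator (fun _ : Fin 1 => c) (E.pt P)
    (fun a ha => hcmp1 a (ha 0))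
  obtain ⟨ν, hν⟩ := exists_coeffs_of_annihilator (fun i : Fin 2 => if i = 0 then c else c')
    (E.tn P) (fun a ha => hcmp2 a (by simpa using ha 0) (by simpa using ha 1))
  have hpt : E.pt P = μ 0 • c := by simpa using hμ
  have htn : E.tn P = ν 0 • c + ν 1 • c' := by
    rw [hν, Fin.sum_univ_two]
    simp
  obtain ⟨hG0, hG1⟩ := jet_ptD_tnD (E.m • prim E.vinf) E.x hx P hG h0
  rw [hpt, htn, jetEv_smul_base _ _ _ hG, jetEv_dir_add_smul, jetEv_self c hG, hG0, hG1]
  ring

end Kill

section MainJet

variable {K F : Type*} [Field K] [Field F] [Algebra K F] [FF1 K F]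

/-- evaluation of a polynomial at the points `y j` and first order jet at `z` along `z'` -/
def evRowJet {n : ℕ} {c : Type*} (y : c → Fin n → K) (z z' : Fin n → K) :
    MvPolynomial (Fin n) K →ₗ[K] (c ⊕ Unit → K) where
  toFun G := Sum.elim (fun j => eval (y j) G) (fun _ => jetEv z z' G)
  map_add' G H := by
    funext q
    cases q <;> simp
  map_smul' a G := by
    funext q
    cases q <;> simp [smul_eval]

/-- **G-RANK-JET** (leaf of the wall of tower H, row S17). -/
theorem rankJet (E : EmbData K F) : RankJetStatement E := by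
  intro k A ρ _ W hk hW c _ y P hy
  rw [← finrank_rrSpace_eq_kapN E hk A]
  refine finrank_span_le_of_factor (aeval E.x).toLinearMap (evRowJet y (E.pt P) (E.tn P))
    (homogeneousSubmodule (Fin (E.r + 1)) K k ⊓
      (riemannRochSpace ((k * E.m) • prim E.vinf - ∑ l, prim (A l))).comap
        (aeval E.x).toLinearMap)
    (riemannRochSpace ((k * E.m) • prim E.vinf - ∑ l, prim (A l))) ?_ ?_ _ ?_
  · intro v hv
    exact hv.2
  · intro v hv h0
    have hhom : v.IsHomogeneous k := hv.1
    funext q
    cases q with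
    | inl j => exact hy j k v hhom h0
    | inr u => exact jetKill E P hhom h0
  · rintro (s | t)
    · refine ⟨secProd (fun i => E.pt (A i)) s,
        ⟨secProd_isHomogeneous _ _, aeval_secProd_mem E A s⟩, ?_⟩
      funext q
      cases q with
      | inl j => simp [evRowJet, stack, betaMat_eq_eval]
      | inr u => simp [evRowJet, stack, jetEv_secProd]
    · refine ⟨linForm (W t.1) * monoOrd t.2,
        ⟨?_, aeval_wRow_mem E hk A (W t.1) (hW t.1) t.2⟩, ?_⟩
      · have h := (linForm_isHomogeneous (W t.1)).mul (monoOrd_isHomogeneous (K := K) t.2)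
        have hk' : 1 + (k - 1) = k := by omega
        rw [hk'] at h
        exact h
      · funext q
        cases q with
        | inl j => simp [evRowJet, stack, wMat_eq_eval]
        | inr u =>
          simp only [evRowJet, stack, LinearMap.coe_mk, AddHom.coe_mk, Sum.elim_inr]
          exact jetEv_wRow _ _ W t

end MainJet

end Fermat.Agent.S17.H328
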